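/-
Descent for the elliptic curves of conductor 15 (used for S51).
Main results:
* `no_sol`: the system `M² = U² + e² = V² + 81 e²` has no integer solution with `e ≠ 0`.
* `rat_points_15a2`: rational points of `y² = x (x - 1) (x - 81)` have `y = 0`.
* `rat_points_15a1`: rational points of `y² = x (x - 9) (x - 25)`.
* `rat_points_15a3`: rational points of `y² = x (x + 1) (x + 16)`.
-/
import Mathlib

set_option autoImplicit false

namespace Fermat.Agent.S51.H471

/-- The Diophantine system `M² = U² + e² = V² + 81 e²` with `e ≠ 0`. -/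
structure Sol (M e U V : ℤ) : Prop where
  he : e ≠ 0
  h1 : M ^ 2 = U ^ 2 + e ^ 2
  h2 : M ^ 2 = V ^ 2 + 81 * e ^ 2

lemma sq_of_coprime_mul_eq_sq {a b c : ℤ} (h : IsCoprime a b) (heq : a * b = c ^ 2)
    (ha : 0 ≤ a) : ∃ r : ℤ, a = r ^ 2 := by
  obtain ⟨r, hr | hr⟩ := Int.sq_of_isCoprime h heq
  · exact ⟨r, hr⟩
  · refine ⟨0, ?_⟩
    have : 0 ≤ r ^ 2 := sq_nonneg r
    nlinarith

/-- The algebraic core of the descent step. -/
lemma core {M e U V k α α' β γ : ℤ} (hk : 0 < k) (hM : 0 < M) (he : e ≠ 0)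
    (h1 : M ^ 2 = U ^ 2 + e ^ 2) (h2 : M ^ 2 = V ^ 2 + 81 * e ^ 2)
    (hA : M + U = k * α ^ 2) (hA' : M - U = k * α' ^ 2)
    (hB : M + V = k * β ^ 2) (hC : U + V = k * γ ^ 2) :
    ∃ M₁ e₁ U₁ V₁ : ℤ, Sol M₁ e₁ U₁ V₁ ∧ M₁.natAbs < M.natAbs := by
  have he2 : 0 < e ^ 2 := by positivity
  have hα' : α' ≠ 0 := by
    rintro rfl
    have hMU : M = U := by linarith
    rw [hMU] at h1
    linarith
  have hα : α ≠ 0 := by
    rintro rfl
    have hMU : U = -M := by linarith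
    rw [hMU] at h1
    nlinarith
  have hγ : β ^ 2 - α' ^ 2 = γ ^ 2 := by
    have : k * (β ^ 2 - α' ^ 2) = k * γ ^ 2 := by linarith
    exact mul_left_cancel₀ hk.ne' this
  have hV : α ^ 2 * (β ^ 2 - 81 * α' ^ 2) = (β * γ) ^ 2 := by
    have h : k ^ 2 * (α ^ 2 * (β ^ 2 - 81 * α' ^ 2)) = k ^ 2 * (β * γ) ^ 2 := by
      have e1 : k ^ 2 * (α ^ 2 * (β ^ 2 - 81 * α' ^ 2))
          = (k * α ^ 2) * (k * β ^ 2 - 81 * (k * α' ^ 2)) := by ring
      have e2 : k ^ 2 * (β * γ) ^ 2 = (k * β ^ 2) * (k * γ ^ 2) := by ring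
      rw [e1, e2, ← hA, ← hA', ← hB, ← hC]
      linear_combination h2 - 81 * h1
    exact mul_left_cancel₀ (pow_ne_zero 2 hk.ne') h
  have hdvd : α ∣ β * γ := by
    have : α ^ 2 ∣ (β * γ) ^ 2 := ⟨_, hV.symm⟩
    exact (Int.pow_dvd_pow_iff two_ne_zero).1 this
  obtain ⟨V₁, hV₁⟩ := hdvd
  have hV₁' : β ^ 2 - 81 * α' ^ 2 = V₁ ^ 2 := by
    have : α ^ 2 * (β ^ 2 - 81 * α' ^ 2) = α ^ 2 * V₁ ^ 2 := by
      rw [hV, hV₁]; ring
    exact mul_left_cancel₀ (pow_ne_zero 2 hα) this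
  refine ⟨β, α', γ, V₁, ⟨hα', by linarith, by linarith⟩, ?_⟩
  rw [Int.natAbs_lt_iff_sq_lt]
  have hVM : V < M := by
    by_contra hcon
    have hcon' : M ≤ V := not_lt.mp hcon
    nlinarith
  have hβ : 0 ≤ β ^ 2 := sq_nonneg β
  have hkβ : β ^ 2 ≤ k * β ^ 2 := by nlinarith
  have hM2 : 2 ≤ M := by
    by_contra hcon
    have hcon' : M < 2 := not_le.mp hcon
    have : M = 1 := by omega
    rw [this] at h2
    nlinarith [sq_nonneg V]
  nlinarith


/-! ### Elementary facts about primitive solutions -/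

lemma Sol.neg_U {M e U V : ℤ} (h : Sol M e U V) : Sol M e (-U) V :=
  ⟨h.he, by rw [neg_sq]; exact h.h1, h.h2⟩

lemma Sol.neg_V {M e U V : ℤ} (h : Sol M e U V) : Sol M e U (-V) :=
  ⟨h.he, h.h1, by rw [neg_sq]; exact h.h2⟩

lemma not_dvd_of_coprime {M e : ℤ} (hc : IsCoprime M e) {p : ℤ} (hp : ¬ IsUnit p)
    (h1 : p ∣ M) : ¬ p ∣ e := fun h2 => hp (hc.isUnit_of_dvd' h1 h2)

lemma not_isUnit_two : ¬ IsUnit (2 : ℤ) := by
  rw [Int.isUnit_iff]; omega

lemma not_isUnit_three : ¬ IsUnit (3 : ℤ) := by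
  rw [Int.isUnit_iff]; omega

lemma not_isUnit_five : ¬ IsUnit (5 : ℤ) := by
  rw [Int.isUnit_iff]; omega

lemma prime_five : Prime (5 : ℤ) := by norm_num

lemma dvd_of_cast_eq_zero {n : ℕ} {a : ℤ} (h : ((a : ℤ) : ZMod n) = 0) : (n : ℤ) ∣ a :=
  (ZMod.intCast_zmod_eq_zero_iff_dvd a n).1 h

lemma cast_eq_zero_of_dvd {n : ℕ} {a : ℤ} (h : (n : ℤ) ∣ a) : ((a : ℤ) : ZMod n) = 0 :=
  (ZMod.intCast_zmod_eq_zero_iff_dvd a n).2 h

lemma Sol.three_not_dvd {M e U V : ℤ} (h : Sol M e U V) (hc : IsCoprime M e) :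
    ¬ (3 : ℤ) ∣ M := by
  intro h3
  have key : ∀ m u e : ZMod 3, m ^ 2 = u ^ 2 + e ^ 2 → m = 0 → e = 0 := by decide
  have hcast := congrArg (Int.cast : ℤ → ZMod 3) h.h1
  push_cast at hcast
  have := key _ _ _ hcast (cast_eq_zero_of_dvd (n := 3) h3)
  exact not_dvd_of_coprime hc not_isUnit_three h3 (dvd_of_cast_eq_zero (n := 3) this)

lemma Sol.odd_M {M e U V : ℤ} (h : Sol M e U V) (hc : IsCoprime M e) : M % 2 = 1 := by
  by_contra hM
  have h2 : (2 : ℤ) ∣ M := by omega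
  have he : ¬ (2 : ℤ) ∣ e := not_dvd_of_coprime hc not_isUnit_two h2
  have key : ∀ m u e : ZMod 4, m ^ 2 = u ^ 2 + e ^ 2 → (m = 0 ∨ m = 2) → (e = 0 ∨ e = 2) := by
    decide
  have hcast := congrArg (Int.cast : ℤ → ZMod 4) h.h1
  push_cast at hcast
  have hm : ((M : ℤ) : ZMod 4) = 0 ∨ ((M : ℤ) : ZMod 4) = 2 := by
    obtain ⟨m, rfl⟩ := h2
    rcases Int.emod_two_eq_zero_or_one m with hm | hm
    · left
      apply cast_eq_zero_of_dvd (n := 4)
      omega
    · right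
      have : ((2 * m - 2 : ℤ) : ZMod 4) = 0 := by
        apply cast_eq_zero_of_dvd (n := 4)
        omega
      push_cast at this ⊢
      linear_combination this
  rcases key _ _ _ hcast hm with h0 | h0
  · apply he
    have := dvd_of_cast_eq_zero (n := 4) h0
    omega
  · apply he
    have : ((e - 2 : ℤ) : ZMod 4) = 0 := by push_cast; linear_combination h0
    have := dvd_of_cast_eq_zero (n := 4) this
    omega


lemma Sol.four_dvd_U_of_odd {M e U V : ℤ} (h : Sol M e U V) (hM : M % 2 = 1)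
    (he : e % 2 = 1) : (4 : ℤ) ∣ U := by
  obtain ⟨m, rfl⟩ : ∃ m, M = 2 * m + 1 := ⟨M / 2, by omega⟩
  obtain ⟨f, rfl⟩ : ∃ f, e = 2 * f + 1 := ⟨e / 2, by omega⟩
  have key : ∀ m u f : ZMod 8, (2 * m + 1) ^ 2 = u ^ 2 + (2 * f + 1) ^ 2 → 2 * u = 0 := by
    decide
  have hcast := congrArg (Int.cast : ℤ → ZMod 8) h.h1
  push_cast at hcast
  have h0 : ((2 * U : ℤ) : ZMod 8) = 0 := by
    push_cast
    exact key _ _ _ hcast
  have := dvd_of_cast_eq_zero (n := 8) h0
  omega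

lemma Sol.four_dvd_V_of_odd {M e U V : ℤ} (h : Sol M e U V) (hM : M % 2 = 1)
    (he : e % 2 = 1) : (4 : ℤ) ∣ V := by
  obtain ⟨m, rfl⟩ : ∃ m, M = 2 * m + 1 := ⟨M / 2, by omega⟩
  obtain ⟨f, rfl⟩ : ∃ f, e = 2 * f + 1 := ⟨e / 2, by omega⟩
  have key : ∀ m v f : ZMod 8, (2 * m + 1) ^ 2 = v ^ 2 + 81 * (2 * f + 1) ^ 2 → 2 * v = 0 := by
    decide
  have hcast := congrArg (Int.cast : ℤ → ZMod 8) h.h2
  push_cast at hcast
  have h0 : ((2 * V : ℤ) : ZMod 8) = 0 := by
    push_cast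
    exact key _ _ _ hcast
  have := dvd_of_cast_eq_zero (n := 8) h0
  omega

lemma Sol.odd_U_of_even {M e U V : ℤ} (h : Sol M e U V) (hM : M % 2 = 1)
    (he : e % 2 = 0) : U % 2 = 1 := by
  obtain ⟨m, rfl⟩ : ∃ m, M = 2 * m + 1 := ⟨M / 2, by omega⟩
  obtain ⟨f, rfl⟩ : ∃ f, e = 2 * f := ⟨e / 2, by omega⟩
  have key : ∀ m u f : ZMod 2, (2 * m + 1) ^ 2 = u ^ 2 + (2 * f) ^ 2 → u - 1 = 0 := by
    decide
  have hcast := congrArg (Int.cast : ℤ → ZMod 2) h.h1
  push_cast at hcast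
  have h0 : ((U - 1 : ℤ) : ZMod 2) = 0 := by
    push_cast
    exact key _ _ _ hcast
  have := dvd_of_cast_eq_zero (n := 2) h0
  omega

lemma Sol.odd_V_of_even {M e U V : ℤ} (h : Sol M e U V) (hM : M % 2 = 1)
    (he : e % 2 = 0) : V % 2 = 1 := by
  obtain ⟨m, rfl⟩ : ∃ m, M = 2 * m + 1 := ⟨M / 2, by omega⟩
  obtain ⟨f, rfl⟩ : ∃ f, e = 2 * f := ⟨e / 2, by omega⟩
  have key : ∀ m v f : ZMod 2, (2 * m + 1) ^ 2 = v ^ 2 + 81 * (2 * f) ^ 2 → v - 1 = 0 := by
    decide
  have hcast := congrArg (Int.cast : ℤ → ZMod 2) h.h2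
  push_cast at hcast
  have h0 : ((V - 1 : ℤ) : ZMod 2) = 0 := by
    push_cast
    exact key _ _ _ hcast
  have := dvd_of_cast_eq_zero (n := 2) h0
  omega

lemma Sol.five_not_dvd_U {M e U V : ℤ} (h : Sol M e U V) (hc : IsCoprime M e) :
    ¬ (5 : ℤ) ∣ U := by
  intro h5
  have key : ∀ m u e v : ZMod 5, m ^ 2 = u ^ 2 + e ^ 2 → m ^ 2 = v ^ 2 + 81 * e ^ 2 →
      u = 0 → v = 0 := by decide
  have hc1 := congrArg (Int.cast : ℤ → ZMod 5) h.h1
  have hc2 := congrArg (Int.cast : ℤ → ZMod 5) h.h2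
  push_cast at hc1 hc2
  have hV : (5 : ℤ) ∣ V :=
    dvd_of_cast_eq_zero (n := 5) (key _ _ _ _ hc1 hc2 (cast_eq_zero_of_dvd (n := 5) h5))
  obtain ⟨u, rfl⟩ := h5
  obtain ⟨v, rfl⟩ := hV
  have h16 : 16 * e ^ 2 = 5 * (u ^ 2 - v ^ 2) := by
    have h1 := h.h1
    have h2 := h.h2
    linarith
  have key2 : ∀ e : ZMod 5, 16 * e ^ 2 = 0 → e = 0 := by decide
  have hc3 := congrArg (Int.cast : ℤ → ZMod 5) h16
  push_cast at hc3
  have h50 : ((5 : ℤ) : ZMod 5) = 0 := cast_eq_zero_of_dvd (n := 5) (dvd_refl _)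
  have h50' : (5 : ZMod 5) = 0 := by exact_mod_cast h50
  rw [h50', zero_mul] at hc3
  have he0 : ((e : ℤ) : ZMod 5) = 0 := key2 _ hc3
  have he5 : (5 : ℤ) ∣ e := dvd_of_cast_eq_zero (n := 5) he0
  have key3 : ∀ m e : ZMod 5, m ^ 2 = 0 + e ^ 2 → e = 0 → m = 0 := by decide
  have hM0 : ((M : ℤ) : ZMod 5) = 0 := by
    apply key3 _ _ _ he0
    rw [hc1]
    push_cast
    rw [h50']
    ring
  exact not_dvd_of_coprime hc not_isUnit_five (dvd_of_cast_eq_zero (n := 5) hM0) he5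

lemma Sol.coprime_eU {M e U V : ℤ} (h : Sol M e U V) (hc : IsCoprime M e) :
    IsCoprime e U := by
  have h1 : IsCoprime e (M ^ 2) := hc.symm.pow_right
  have h2 : IsCoprime e (M ^ 2 + e * (-e)) := h1.add_mul_left_right _
  have h3 : M ^ 2 + e * (-e) = U ^ 2 := by linear_combination h.h1
  rw [h3] at h2
  exact (IsCoprime.pow_right_iff (by norm_num)).1 h2

lemma Sol.coprime_MU {M e U V : ℤ} (h : Sol M e U V) (hc : IsCoprime M e) :
    IsCoprime M U := by
  have h1 : IsCoprime M (-e ^ 2) := (hc.pow_right).neg_right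
  have h2 : IsCoprime M (-e ^ 2 + M * M) := h1.add_mul_left_right _
  have h3 : -e ^ 2 + M * M = U ^ 2 := by linear_combination h.h1
  rw [h3] at h2
  exact (IsCoprime.pow_right_iff (by norm_num)).1 h2

lemma coprime_three_of_not_dvd {M : ℤ} (h : ¬ (3 : ℤ) ∣ M) : IsCoprime M 3 :=
  ((Int.prime_three.coprime_iff_not_dvd).2 h).symm

lemma coprime_five_of_not_dvd {M : ℤ} (h : ¬ (5 : ℤ) ∣ M) : IsCoprime M 5 :=
  ((prime_five.coprime_iff_not_dvd).2 h).symm

lemma coprime_two_of_odd {M : ℤ} (h : M % 2 = 1) : IsCoprime M 2 :=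
  (Int.isCoprime_two_left.2 (Int.odd_iff.2 h)).symm

lemma Sol.coprime_MV {M e U V : ℤ} (h : Sol M e U V) (hc : IsCoprime M e) :
    IsCoprime M V := by
  have h3 : IsCoprime M 3 := coprime_three_of_not_dvd (h.three_not_dvd hc)
  have h81 : IsCoprime M 81 := by
    have : (81 : ℤ) = 3 ^ 4 := by norm_num
    rw [this]; exact h3.pow_right
  have h1 : IsCoprime M (-(81 * e ^ 2)) := (h81.mul_right hc.pow_right).neg_right
  have h2 : IsCoprime M (-(81 * e ^ 2) + M * M) := h1.add_mul_left_right _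
  have h3 : -(81 * e ^ 2) + M * M = V ^ 2 := by linear_combination h.h2
  rw [h3] at h2
  exact (IsCoprime.pow_right_iff (by norm_num)).1 h2

/-- If `a`, `b` are coprime and `a + b` is odd then `a + b` and `a - b` are coprime. -/
lemma coprime_add_sub {a b : ℤ} (h : IsCoprime a b) (hodd : (a + b) % 2 = 1) :
    IsCoprime (a + b) (a - b) := by
  have h1 : IsCoprime (a + b) 2 := coprime_two_of_odd hodd
  have h2 : IsCoprime (a + b) a := by
    have := (h.symm.add_mul_left_left 1)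
    simpa [add_comm] using this
  have h3 : IsCoprime (a + b) (2 * a) := h1.mul_right h2
  have h4 := h3.add_mul_left_right (-1)
  have h5 : 2 * a + (a + b) * (-1) = a - b := by ring
  rwa [h5] at h4

/-- If `A + A'` and `A - A'` are coprime then so are `A` and `A'`. -/
lemma coprime_of_add_sub {A A' : ℤ} (h : IsCoprime (A + A') (A - A')) : IsCoprime A A' := by
  obtain ⟨x, y, hxy⟩ := h
  exact ⟨x + y, x - y, by linear_combination hxy⟩

/-- `M + X` is a square when `M² = X² + f²`, `M, X` coprime, `M + X` odd. -/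
lemma sq_add_of_odd {M X f : ℤ} (hM : 0 < M) (h : M ^ 2 = X ^ 2 + f ^ 2) (hf : f ≠ 0)
    (hco : IsCoprime M X) (hodd : (M + X) % 2 = 1) : ∃ α : ℤ, M + X = α ^ 2 := by
  have hcop : IsCoprime (M + X) (M - X) := coprime_add_sub hco hodd
  have hprod : (M + X) * (M - X) = f ^ 2 := by linear_combination h
  have hf2 : 0 < f ^ 2 := by positivity
  have hpos : 0 ≤ M + X := by
    by_contra hcon
    have hcon' : M + X < 0 := not_le.mp hcon
    nlinarith
  exact sq_of_coprime_mul_eq_sq hcop hprod hpos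

/-- `M + X` is twice a square when `M² = X² + f²`, `M, X` coprime and both odd. -/
lemma sq_add_of_even {M X f : ℤ} (hM : 0 < M) (h : M ^ 2 = X ^ 2 + f ^ 2) (hf : f ≠ 0)
    (hco : IsCoprime M X) (hM1 : M % 2 = 1) (hX1 : X % 2 = 1) :
    ∃ α : ℤ, M + X = 2 * α ^ 2 := by
  obtain ⟨A, hA⟩ : ∃ A, M + X = 2 * A := ⟨(M + X) / 2, by omega⟩
  obtain ⟨A', hA'⟩ : ∃ A', M - X = 2 * A' := ⟨(M - X) / 2, by omega⟩
  have hMA : M = A + A' := by linarith
  have hXA : X = A - A' := by linarith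
  have hf2 : f % 2 = 0 := by
    have key : ∀ m x f : ZMod 2, m ^ 2 = x ^ 2 + f ^ 2 → m - 1 = 0 → x - 1 = 0 → f = 0 := by
      decide
    have hcast := congrArg (Int.cast : ℤ → ZMod 2) h
    push_cast at hcast
    have hm : ((M - 1 : ℤ) : ZMod 2) = 0 := cast_eq_zero_of_dvd (n := 2) (by omega)
    have hx : ((X - 1 : ℤ) : ZMod 2) = 0 := cast_eq_zero_of_dvd (n := 2) (by omega)
    push_cast at hm hx
    have := dvd_of_cast_eq_zero (n := 2) (key _ _ _ hcast hm hx)
    omega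
  obtain ⟨g, rfl⟩ : ∃ g, f = 2 * g := ⟨f / 2, by omega⟩
  have hprod : A * A' = g ^ 2 := by
    have : (2 * A) * (2 * A') = (2 * g) ^ 2 := by
      rw [← hA, ← hA']; linear_combination h
    linarith
  have hcop : IsCoprime A A' := by
    apply coprime_of_add_sub
    rw [← hMA, ← hXA]; exact hco
  have hg : g ≠ 0 := by rintro rfl; exact hf (by norm_num)
  have hg2 : 0 < g ^ 2 := by positivity
  have hpos : 0 ≤ A := by
    by_contra hcon
    have hcon' : A < 0 := not_le.mp hcon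
    have : A' < 0 := by nlinarith
    nlinarith
  obtain ⟨α, hα⟩ := sq_of_coprime_mul_eq_sq hcop hprod hpos
  exact ⟨α, by rw [hA, hα]⟩

/-- If `c * d = 5 f²` with `c, d` coprime, then one of `±c, ±d` is a square. -/
lemma sq_of_mul_eq_five_sq {c d f : ℤ} (h : c * d = 5 * f ^ 2) (hco : IsCoprime c d) :
    ∃ γ : ℤ, c = γ ^ 2 ∨ c = -γ ^ 2 ∨ d = γ ^ 2 ∨ d = -γ ^ 2 := by
  have h5 : (5 : ℤ) ∣ c * d := ⟨f ^ 2, h⟩
  rcases prime_five.dvd_or_dvd h5 with hc | hd
  · obtain ⟨c', rfl⟩ := hc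
    have hprod : d * c' = f ^ 2 := by
      have : 5 * (d * c') = 5 * f ^ 2 := by linear_combination h
      linarith
    have hcop : IsCoprime d c' := (hco.symm).of_mul_right_right
    obtain ⟨γ, hγ | hγ⟩ := Int.sq_of_isCoprime hcop hprod
    · exact ⟨γ, Or.inr (Or.inr (Or.inl hγ))⟩
    · exact ⟨γ, Or.inr (Or.inr (Or.inr hγ))⟩
  · obtain ⟨d', rfl⟩ := hd
    have hprod : c * d' = f ^ 2 := by
      have : 5 * (c * d') = 5 * f ^ 2 := by linear_combination h
      linarith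
    have hcop : IsCoprime c d' := hco.of_mul_right_right
    obtain ⟨γ, hγ | hγ⟩ := Int.sq_of_isCoprime hcop hprod
    · exact ⟨γ, Or.inl hγ⟩
    · exact ⟨γ, Or.inr (Or.inl hγ)⟩


/-- Oriented descent step, `e` odd. -/
lemma descent_odd_oriented {M e U V : ℤ} (h : Sol M e U V) (hc : IsCoprime M e) (hM : 0 < M)
    (he : e % 2 = 1) {γ : ℤ} (hγ : U + V = γ ^ 2) :
    ∃ M₁ e₁ U₁ V₁ : ℤ, Sol M₁ e₁ U₁ V₁ ∧ M₁.natAbs < M.natAbs := by
  have hM1 := h.odd_M hc
  have hU4 := h.four_dvd_U_of_odd hM1 he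
  have hV4 := h.four_dvd_V_of_odd hM1 he
  have he9 : 9 * e ≠ 0 := mul_ne_zero (by norm_num) h.he
  obtain ⟨α, hα⟩ := sq_add_of_odd hM h.h1 h.he (h.coprime_MU hc) (by omega)
  obtain ⟨α', hα'⟩ := sq_add_of_odd (X := -U) hM (by rw [neg_sq]; exact h.h1) h.he
    (h.neg_U.coprime_MU hc) (by omega)
  obtain ⟨β, hβ⟩ := sq_add_of_odd (f := 9 * e) hM (by linear_combination h.h2) he9
    (h.coprime_MV hc) (by omega)
  exact core (k := 1) one_pos hM h.he h.h1 h.h2 (by rw [hα]; ring)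
    (by rw [sub_eq_add_neg, hα']; ring) (by rw [hβ]; ring) (by rw [hγ]; ring)

/-- Oriented descent step, `e` even. -/
lemma descent_even_oriented {M e U V : ℤ} (h : Sol M e U V) (hc : IsCoprime M e) (hM : 0 < M)
    (he : e % 2 = 0) {γ : ℤ} (hγ : U + V = 2 * γ ^ 2) :
    ∃ M₁ e₁ U₁ V₁ : ℤ, Sol M₁ e₁ U₁ V₁ ∧ M₁.natAbs < M.natAbs := by
  have hM1 := h.odd_M hc
  have hU1 := h.odd_U_of_even hM1 he
  have hV1 := h.odd_V_of_even hM1 he
  have he9 : 9 * e ≠ 0 := mul_ne_zero (by norm_num) h.he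
  obtain ⟨α, hα⟩ := sq_add_of_even hM h.h1 h.he (h.coprime_MU hc) hM1 hU1
  obtain ⟨α', hα'⟩ := sq_add_of_even (X := -U) hM (by rw [neg_sq]; exact h.h1) h.he
    (h.neg_U.coprime_MU hc) hM1 (by omega)
  obtain ⟨β, hβ⟩ := sq_add_of_even (f := 9 * e) hM (by linear_combination h.h2) he9
    (h.coprime_MV hc) hM1 hV1
  exact core (k := 2) two_pos hM h.he h.h1 h.h2 hα
    (by rw [sub_eq_add_neg, hα']) hβ hγ

/-- Descent step for primitive solutions. -/
lemma descent_primitive {M e U V : ℤ} (h : Sol M e U V) (hc : IsCoprime M e) (hM : 0 < M) :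
    ∃ M₁ e₁ U₁ V₁ : ℤ, Sol M₁ e₁ U₁ V₁ ∧ M₁.natAbs < M.natAbs := by
  have hM1 := h.odd_M hc
  have hU5 : IsCoprime U 5 := coprime_five_of_not_dvd (h.five_not_dvd_U hc)
  have hUe : IsCoprime U e := (h.coprime_eU hc).symm
  have hUV : U ^ 2 - V ^ 2 = 80 * e ^ 2 := by linear_combination h.h2 - h.h1
  rcases Int.emod_two_eq_zero_or_one e with he | he
  · -- `e` even
    have hU1 := h.odd_U_of_even hM1 he
    have hV1 := h.odd_V_of_even hM1 he
    obtain ⟨c, hc'⟩ : ∃ c, U + V = 2 * c := ⟨(U + V) / 2, by omega⟩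
    obtain ⟨d, hd'⟩ : ∃ d, U - V = 2 * d := ⟨(U - V) / 2, by omega⟩
    have hUc : U = c + d := by linarith
    have hVc : V = c - d := by linarith
    have hcopUV : IsCoprime U V := by
      have h2 : IsCoprime U 2 := coprime_two_of_odd hU1
      have h80 : IsCoprime U 80 := by
        have : (80 : ℤ) = 2 ^ 4 * 5 := by norm_num
        rw [this]; exact h2.pow_right.mul_right hU5
      have h1 : IsCoprime U (-(80 * e ^ 2)) := (h80.mul_right hUe.pow_right).neg_right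
      have h3 : IsCoprime U (-(80 * e ^ 2) + U * U) := h1.add_mul_left_right _
      have h4 : -(80 * e ^ 2) + U * U = V ^ 2 := by linear_combination hUV
      rw [h4] at h3
      exact (IsCoprime.pow_right_iff (by norm_num)).1 h3
    have hcop : IsCoprime c d := by
      apply coprime_of_add_sub
      rw [← hUc, ← hVc]; exact hcopUV
    have hprod : c * d = 5 * (2 * e) ^ 2 := by
      have : (2 * c) * (2 * d) = 80 * e ^ 2 := by
        rw [← hc', ← hd']; linear_combination hUV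
      linarith
    obtain ⟨γ, hγ | hγ | hγ | hγ⟩ := sq_of_mul_eq_five_sq hprod hcop
    · exact descent_even_oriented h hc hM he (γ := γ) (by rw [hc', hγ])
    · obtain ⟨M₁, e₁, U₁, V₁, hs, hlt⟩ :=
        descent_even_oriented h.neg_U.neg_V hc hM he (γ := γ) (by linarith)
      exact ⟨M₁, e₁, U₁, V₁, hs, hlt⟩
    · exact descent_even_oriented h.neg_V hc hM he (γ := γ) (by linarith)
    · exact descent_even_oriented h.neg_U hc hM he (γ := γ) (by linarith)
  · -- `e` odd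
    obtain ⟨u, hu⟩ := h.four_dvd_U_of_odd hM1 he
    obtain ⟨v, hv⟩ := h.four_dvd_V_of_odd hM1 he
    have hprod : (u + v) * (u - v) = 5 * e ^ 2 := by
      have : 16 * ((u + v) * (u - v)) = 80 * e ^ 2 := by
        rw [hu, hv] at hUV; linear_combination hUV
      linarith
    have hodd : (u + v) % 2 = 1 := by
      obtain ⟨f, rfl⟩ : ∃ f, e = 2 * f + 1 := ⟨e / 2, by omega⟩
      have key : ∀ u v f : ZMod 2, (u + v) * (u - v) = 5 * (2 * f + 1) ^ 2 → u + v - 1 = 0 := by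
        decide
      have hcast := congrArg (Int.cast : ℤ → ZMod 2) hprod
      push_cast at hcast
      have h0 : ((u + v - 1 : ℤ) : ZMod 2) = 0 := by
        push_cast
        exact key _ _ _ hcast
      have := dvd_of_cast_eq_zero (n := 2) h0
      omega
    have hcopuv : IsCoprime u v := by
      have hu5 : IsCoprime u 5 := by
        rw [hu] at hU5; exact hU5.of_mul_left_right
      have hue : IsCoprime u e := by
        rw [hu] at hUe; exact hUe.of_mul_left_right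
      have h1 : IsCoprime u (-(5 * e ^ 2)) := (hu5.mul_right hue.pow_right).neg_right
      have h3 : IsCoprime u (-(5 * e ^ 2) + u * u) := h1.add_mul_left_right _
      have h4 : -(5 * e ^ 2) + u * u = v ^ 2 := by linear_combination hprod
      rw [h4] at h3
      exact (IsCoprime.pow_right_iff (by norm_num)).1 h3
    have hcop : IsCoprime (u + v) (u - v) := coprime_add_sub hcopuv hodd
    obtain ⟨γ, hγ | hγ | hγ | hγ⟩ := sq_of_mul_eq_five_sq hprod hcop
    · exact descent_odd_oriented h hc hM he (γ := 2 * γ) (by rw [hu, hv]; linear_combination 4 * hγ)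
    · exact descent_odd_oriented h.neg_U.neg_V hc hM he (γ := 2 * γ)
        (by rw [hu, hv]; linear_combination -4 * hγ)
    · exact descent_odd_oriented h.neg_V hc hM he (γ := 2 * γ)
        (by rw [hu, hv]; linear_combination 4 * hγ)
    · exact descent_odd_oriented h.neg_U hc hM he (γ := 2 * γ)
        (by rw [hu, hv]; linear_combination -4 * hγ)

/-- **Main descent theorem**: the system `M² = U² + e² = V² + 81 e²` has no integer solution
with `e ≠ 0`. Equivalently, the elliptic curve `y² = x (x - 1) (x - 81)` (15a2) has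
no rational point that is a double of a rational point, other than the origin. -/
theorem no_sol (M e U V : ℤ) (he : e ≠ 0) (h1 : M ^ 2 = U ^ 2 + e ^ 2)
    (h2 : M ^ 2 = V ^ 2 + 81 * e ^ 2) : False := by
  suffices H : ∀ n : ℕ, ∀ M e U V : ℤ, M.natAbs = n → Sol M e U V → False from
    H _ M e U V rfl ⟨he, h1, h2⟩
  intro n
  induction n using Nat.strong_induction_on with
  | _ n ih =>
    intro M e U V hn h
    -- reduce to `M > 0`
    have hM0 : M ≠ 0 := by
      rintro rfl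
      have := h.h1
      have he2 : 0 < e ^ 2 := by have := h.he; positivity
      nlinarith [sq_nonneg U]
    -- reduce to the primitive case
    by_cases hc : IsCoprime M e
    · have hS : Sol |M| e U V := ⟨h.he, by rw [sq_abs]; exact h.h1, by rw [sq_abs]; exact h.h2⟩
      have hc' : IsCoprime |M| e := by
        rcases abs_choice M with hM | hM
        · rw [hM]; exact hc
        · rw [hM]; exact hc.neg_left
      obtain ⟨M₁, e₁, U₁, V₁, hs, hlt⟩ := descent_primitive hS hc' (abs_pos.2 hM0)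
      rw [Int.natAbs_abs, hn] at hlt
      exact ih _ hlt M₁ e₁ U₁ V₁ rfl hs
    · -- not primitive: divide by the gcd
      rw [Int.isCoprime_iff_gcd_eq_one] at hc
      obtain ⟨g, hg1, hgM, hge⟩ : ∃ g : ℤ, 1 < g ∧ g ∣ M ∧ g ∣ e := by
        refine ⟨(Int.gcd M e : ℤ), ?_, Int.gcd_dvd_left M e, Int.gcd_dvd_right M e⟩
        have h0 : Int.gcd M e ≠ 0 := by
          intro h0
          exact hM0 (Int.gcd_eq_zero_iff.1 h0).1
        have : 1 < Int.gcd M e := by omega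
        exact_mod_cast this
      have hg0 : g ≠ 0 := by omega
      obtain ⟨M', rfl⟩ := hgM
      obtain ⟨e', rfl⟩ := hge
      have hgU : g ∣ U := by
        have : g ^ 2 ∣ U ^ 2 := ⟨M' ^ 2 - e' ^ 2, by linear_combination -h.h1⟩
        exact (Int.pow_dvd_pow_iff two_ne_zero).1 this
      have hgV : g ∣ V := by
        have : g ^ 2 ∣ V ^ 2 := ⟨M' ^ 2 - 81 * e' ^ 2, by linear_combination -h.h2⟩
        exact (Int.pow_dvd_pow_iff two_ne_zero).1 this
      obtain ⟨U', rfl⟩ := hgU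
      obtain ⟨V', rfl⟩ := hgV
      have hg2 : g ^ 2 ≠ 0 := pow_ne_zero 2 hg0
      have hS : Sol M' e' U' V' := by
        refine ⟨fun h0 => h.he (by rw [h0, mul_zero]), ?_, ?_⟩
        · apply mul_left_cancel₀ hg2
          linear_combination h.h1
        · apply mul_left_cancel₀ hg2
          linear_combination h.h2
      have hM'0 : M' ≠ 0 := fun h0 => hM0 (by rw [h0, mul_zero])
      have hlt : M'.natAbs < n := by
        rw [← hn, Int.natAbs_mul]
        have h1 : 1 < g.natAbs := by omega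
        have h2 : 0 < M'.natAbs := Int.natAbs_pos.2 hM'0
        nlinarith
      exact ih _ hlt M' e' U' V' rfl hS

end Fermat.Agent.S51.H471
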