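/-
Rational points on the elliptic curves 15a1, 15a2, 15a3 (used for S51).
-/
import Fermat.Agent.S51.H471.Descent

set_option autoImplicit false

namespace Fermat.Agent.S51.H471

/-- Rational version of `no_sol`. -/
theorem no_sol_rat (m e u v : ℚ) (he : e ≠ 0) (h1 : m ^ 2 = u ^ 2 + e ^ 2)
    (h2 : m ^ 2 = v ^ 2 + 81 * e ^ 2) : False := by
  -- clear denominators
  have hm := Rat.mul_den_eq_num m
  have he' := Rat.mul_den_eq_num e
  have hu := Rat.mul_den_eq_num u
  have hv := Rat.mul_den_eq_num v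
  have hmd : (m.den : ℚ) ≠ 0 := by exact_mod_cast m.den_ne_zero
  have hed : (e.den : ℚ) ≠ 0 := by exact_mod_cast e.den_ne_zero
  have hud : (u.den : ℚ) ≠ 0 := by exact_mod_cast u.den_ne_zero
  have hvd : (v.den : ℚ) ≠ 0 := by exact_mod_cast v.den_ne_zero
  have hen : e.num ≠ 0 := Rat.num_ne_zero.2 he
  apply no_sol (m.num * (e.den * u.den * v.den)) (e.num * (m.den * u.den * v.den))
    (u.num * (m.den * e.den * v.den)) (v.num * (m.den * e.den * u.den))
  · apply mul_ne_zero hen
    have := m.den_ne_zero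
    have := u.den_ne_zero
    have := v.den_ne_zero
    positivity
  · have : ((m.num * (e.den * u.den * v.den) : ℤ) : ℚ) ^ 2
        = ((u.num * (m.den * e.den * v.den) : ℤ) : ℚ) ^ 2
          + ((e.num * (m.den * u.den * v.den) : ℤ) : ℚ) ^ 2 := by
      push_cast
      rw [← hm, ← he', ← hu]
      linear_combination ((m.den : ℚ) * e.den * u.den * v.den) ^ 2 * h1
    exact_mod_cast this
  · have : ((m.num * (e.den * u.den * v.den) : ℤ) : ℚ) ^ 2
        = ((v.num * (m.den * e.den * u.den) : ℤ) : ℚ) ^ 2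
          + 81 * ((e.num * (m.den * u.den * v.den) : ℤ) : ℚ) ^ 2 := by
      push_cast
      rw [← hm, ← he', ← hv]
      linear_combination ((m.den : ℚ) * e.den * u.den * v.den) ^ 2 * h2
    exact_mod_cast this

/-- There is no rational `x` with `x`, `x - 1`, `x - 81` all squares
(the curve 15a2 has no nontrivial rational point divisible by 2). -/
theorem no_three_squares (r s t : ℚ) (h1 : r ^ 2 - 1 = s ^ 2) (h2 : r ^ 2 - 81 = t ^ 2) :
    False :=
  no_sol_rat r 1 s t one_ne_zero (by linear_combination h1) (by linear_combination h2)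

/-- **Rational points of 15a2**: `y² = x (x - 1) (x - 81)` forces `y = 0`. -/
theorem rat_points_15a2 (x y : ℚ) (h : y ^ 2 = x * (x - 1) * (x - 81)) : y = 0 := by
  by_contra hy
  apply no_sol_rat (x ^ 2 - 81) (2 * y) (x ^ 2 - 2 * x + 81) (x ^ 2 - 162 * x + 81)
    (mul_ne_zero two_ne_zero hy)
  · linear_combination (-4 : ℚ) * h
  · linear_combination (-324 : ℚ) * h

/-- **Rational points of 15a2**, explicit form. -/
theorem rat_points_15a2' (x y : ℚ) (h : y ^ 2 = x * (x - 1) * (x - 81)) :
    x = 0 ∨ x = 1 ∨ x = 81 := by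
  have hy := rat_points_15a2 x y h
  rw [hy] at h
  have h0 : x * (x - 1) * (x - 81) = 0 := by rw [← h]; ring
  rcases mul_eq_zero.1 h0 with h0 | h0
  · rcases mul_eq_zero.1 h0 with h0 | h0
    · exact Or.inl h0
    · exact Or.inr (Or.inl (by linarith))
  · exact Or.inr (Or.inr (by linarith))

/-- **Rational points of 15a1 = X₀(15)** in the model `y² = x (x - 9) (x - 25)`. -/
theorem rat_points_15a1 (x y : ℚ) (h : y ^ 2 = x * (x - 9) * (x - 25)) :
    x = 0 ∨ x = 9 ∨ x = 25 ∨ x = 5 ∨ x = 45 := by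
  by_cases hX : x - 25 = 0
  · exact Or.inr (Or.inr (Or.inl (by linarith)))
  -- 2-isogeny to 15a2 with kernel generated by (25, 0)
  have key := rat_points_15a2 (y ^ 2 / (x - 25) ^ 2)
    (y * (400 - (x - 25) ^ 2) / (x - 25) ^ 2) (by
      field_simp
      rw [h]
      ring)
  have hX2 : (x - 25) ^ 2 ≠ 0 := pow_ne_zero 2 hX
  rw [div_eq_zero_iff] at key
  rcases key with key | key
  · rcases mul_eq_zero.1 key with hy | hq
    · rw [hy] at h
      have h0 : x * (x - 9) * (x - 25) = 0 := by rw [← h]; ring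
      rcases mul_eq_zero.1 h0 with h0 | h0
      · rcases mul_eq_zero.1 h0 with h0 | h0
        · exact Or.inl h0
        · exact Or.inr (Or.inl (by linarith))
      · exact Or.inr (Or.inr (Or.inl (by linarith)))
    · have h0 : (x - 5) * (x - 45) = 0 := by linear_combination -hq
      rcases mul_eq_zero.1 h0 with h0 | h0
      · exact Or.inr (Or.inr (Or.inr (Or.inl (by linarith))))
      · exact Or.inr (Or.inr (Or.inr (Or.inr (by linarith))))
  · exact absurd key hX2

/-- **Rational points of 15a1 = X₀(15)** in the model `y² = x (x + 9) (x - 16)`. -/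
theorem rat_points_15a1' (x y : ℚ) (h : y ^ 2 = x * (x + 9) * (x - 16)) :
    x = 0 ∨ x = -9 ∨ x = 16 ∨ x = -4 ∨ x = 36 := by
  have := rat_points_15a1 (x + 9) y (by rw [h]; ring)
  rcases this with h | h | h | h | h
  · exact Or.inr (Or.inl (by linarith))
  · exact Or.inl (by linarith)
  · exact Or.inr (Or.inr (Or.inl (by linarith)))
  · exact Or.inr (Or.inr (Or.inr (Or.inl (by linarith))))
  · exact Or.inr (Or.inr (Or.inr (Or.inr (by linarith))))


/-- The descent statement in the exact shape `hdesc` used by the modular-curve glue. -/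
theorem hdesc : ∀ x y : ℚ, y ^ 2 = x * (x + 9) * (x - 16) →
    x = 0 ∨ x = -9 ∨ x = 16 ∨ x = -4 ∨ x = 36 :=
  rat_points_15a1'

/-- The descent statement in the shape `Descent15`. -/
theorem descent15 : ∀ X Y : ℚ, Y ^ 2 = X * (X - 16) * (X + 9) →
    X = 0 ∨ X = 16 ∨ X = -9 ∨ X = 36 ∨ X = -4 := by
  intro X Y h
  rcases rat_points_15a1' X Y (by rw [h]; ring) with h | h | h | h | h
  · exact Or.inl h
  · exact Or.inr (Or.inr (Or.inl h))
  · exact Or.inr (Or.inl h)
  · exact Or.inr (Or.inr (Or.inr (Or.inr h)))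
  · exact Or.inr (Or.inr (Or.inr (Or.inl h)))

/-- Variant with the points listed as `0, -9, 16, 36, -4`. -/
theorem descent15' (x y : ℚ) (h : y ^ 2 = x * (x + 9) * (x - 16)) :
    x = 0 ∨ x = -9 ∨ x = 16 ∨ x = 36 ∨ x = -4 := by
  rcases rat_points_15a1' x y h with h | h | h | h | h
  · exact Or.inl h
  · exact Or.inr (Or.inl h)
  · exact Or.inr (Or.inr (Or.inl h))
  · exact Or.inr (Or.inr (Or.inr (Or.inr h)))
  · exact Or.inr (Or.inr (Or.inr (Or.inl h)))

end Fermat.Agent.S51.H471
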